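import Fermat.Agent.S38.H593.StGen
import Fermat.Agent.S38T.H593.StCorSpec
import Fermat.Agent.S38T.H953.NuPtSpec
import Fermat.Agent.S38T.IA.Hecke.Spec4

/-!
# Row S59, cell LO-IA (B2), HECKE-T, leaf IA-ST: the final assembly, type `ty`  (helper593)

`iaStPt_h593_T : IAMinZeroStatement_T → S35Statement → IAStCorStatement_T → IAStPtStatement953_T`

= the twin of `S38/H593/StAsm.lean` (`iaStPt_h593`), for every type `ty` at `p` and every odd
prime `p`: an instance of the generic engine `st_KG_h593` (`S38/H593/StGen.lean`) at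
`L = ribetLevelT p ty Smin Piv`, `L' = ribetLevelT p ty Smin (Piv.erase q)`.
-/

set_option autoImplicit false

open Polynomial IsLocalRing CongruenceSubgroup
open scoped MatrixGroups

namespace Fermat.Agent.S38.H593

open Fermat.Agent.S59.Arch Fermat.Agent.S59.TW.H959 Fermat.Agent.S59.TW Fermat.Agent.S59.H765
open Fermat.Agent.S59.TW.H653 Fermat.Agent.S59.TW.Aut Fermat.Agent.S59.TW.H201
open Fermat.Agent.S38.IA Fermat.Agent.S38.IA.Hecke
open Fermat.Agent.S38.H953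
open CuspForm

/-! ## Arithmetic of the levels of type `ty` -/

section ArithT

variable {p : ℕ} {ty : PType} {Smin Piv : Finset ℕ} {r : ℕ} {qv : Fin r → ℕ}

theorem ribetLevelT_erase_mul_h593 {q : ℕ} (hq : q ∈ Piv) :
    ribetLevelT p ty Smin Piv = ribetLevelT p ty Smin (Piv.erase q) * q := by
  rw [ribetLevelT_eq, ribetLevelT_eq, ribetLevel_erase_mul (p := p) (Smin := Smin) hq]
  ring

theorem pFac_ne_zero_h593 (hp : p.Prime) : pFac p ty ≠ 0 := by
  cases ty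
  · exact one_ne_zero
  · exact hp.ne_zero
  · exact hp.ne_zero

theorem eq_of_prime_dvd_pFac_h593 (hp : p.Prime) {ℓ : ℕ} (hℓ : ℓ.Prime) (hd : ℓ ∣ pFac p ty) :
    ℓ = p := by
  cases ty
  · exact absurd (Nat.dvd_one.mp hd) hℓ.ne_one
  · exact (Nat.prime_dvd_prime_iff_eq hℓ hp).mp hd
  · exact (Nat.prime_dvd_prime_iff_eq hℓ hp).mp hd

theorem ribetLevelT_ne_zero_h593 (hp : p.Prime) (Piv' : Finset ℕ)
    (hS : ∀ x ∈ Smin, x.Prime) (hP : ∀ x ∈ Piv', x.Prime) :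
    ribetLevelT p ty Smin Piv' ≠ 0 := by
  rw [ribetLevelT_eq]
  exact Nat.mul_ne_zero (H264.ribetLevel_ne_zero p Smin Piv' hS hP) (pFac_ne_zero_h593 hp)

/-- A prime dividing `gLevel (ribetLevelT p ty Smin Piv') qv` lies in
`Smin ∪ Piv' ∪ image qv ∪ {p}`. -/
theorem mem_of_prime_dvd_gLevelT_h593 (hp : p.Prime) (Piv' : Finset ℕ)
    (hS : ∀ x ∈ Smin, x.Prime) (hP : ∀ x ∈ Piv', x.Prime) (hQ : ∀ j, (qv j).Prime)
    {ℓ : ℕ} (hℓ : ℓ.Prime) (hd : ℓ ∣ gLevel (ribetLevelT p ty Smin Piv') qv) :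
    ((ℓ ∈ Smin.erase p ∨ ℓ ∈ Piv') ∨ ∃ j, ℓ = qv j) ∨ ℓ = p := by
  have e : gLevel (ribetLevelT p ty Smin Piv') qv =
      gLevel (ribetLevel p Smin Piv') qv * pFac p ty := by
    unfold gLevel
    rw [ribetLevelT_eq]
    ring
  rw [e] at hd
  rcases (Nat.Prime.dvd_mul hℓ).mp hd with h1 | h1
  · exact Or.inl (mem_of_prime_dvd_gLevel Piv' hS hP hQ hℓ h1)
  · exact Or.inr (eq_of_prime_dvd_pFac_h593 hp hℓ h1)

end ArithT

/-! ## The assembly -/

theorem iaStPt_h593_T (hMZ : IAMinZeroStatement_T) (hS35 : Fermat.Agent.S58.S35Statement)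
    (hCor : IAStCorStatement_T) : IAStPtStatement953_T := by
  intro p _ hp3 𝒪 _ _ _ _ _ _ ρbar Smin h ty hty Piv hPiv hmin k pv hpv hpvPiv n r qv hq _ PQ α hα
    V h' a hV hh1 hh2 ha 𝒪' _ _ _ _ _ _ _ x hx hp' hsupp q hqP P hP φ hφ
  have hpprime : p.Prime := Fact.out
  have hSp : ∀ x ∈ Smin, x.Prime := h.hSmin
  have hPp : ∀ x ∈ Piv, x.Prime := fun x hx => (hPiv x hx).1
  have hP' : ∀ x ∈ Piv.erase q, x.Prime := fun x hx => hPp x (Finset.mem_of_mem_erase hx)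
  have hQp : ∀ j, (qv j).Prime := fun j => (hq.2.1 j).1
  have hqprime : q.Prime := hPp q hqP
  have hqp : q ≠ p := fun e => (hPiv q hqP).2.1 (e ▸ h.hpSmin)
  have hsub : Smin ⊆ Smin ∪ Piv ∪ Finset.univ.image qv := fun x hx =>
    Finset.mem_union_left _ (Finset.mem_union_left _ hx)
  have hSigP : ∀ x ∈ Smin ∪ Piv ∪ Finset.univ.image qv, x.Prime := by
    intro x hx
    rcases Finset.mem_union.mp hx with h1 | h1
    · rcases Finset.mem_union.mp h1 with h2 | h2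
      · exact hSp x h2
      · exact hPp x h2
    · obtain ⟨j, -, rfl⟩ := Finset.mem_image.mp h1
      exact hQp j
  have hLSig : ∀ ℓ : ℕ, ℓ.Prime → ℓ ∣ gLevel (ribetLevelT p ty Smin Piv) qv →
      ℓ ∈ Smin ∪ Piv ∪ Finset.univ.image qv := by
    intro ℓ hℓ hd
    rcases mem_of_prime_dvd_gLevelT_h593 hpprime Piv hSp hPp hQp hℓ hd with
      ((h1 | h1) | ⟨j, hj⟩) | h1
    · exact Finset.mem_union_left _ (Finset.mem_union_left _ (Finset.mem_of_mem_erase h1))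
    · exact Finset.mem_union_left _ (Finset.mem_union_right _ h1)
    · exact Finset.mem_union_right _ (Finset.mem_image.mpr ⟨j, Finset.mem_univ j, hj.symm⟩)
    · rw [h1]
      exact hsub h.hpSmin
  have hqN : ¬ q ∣ gLevel (ribetLevelT p ty Smin (Piv.erase q)) qv := by
    intro hd
    rcases mem_of_prime_dvd_gLevelT_h593 hpprime (Piv.erase q) hSp hP' hQp hqprime hd with
      ((h1 | h1) | ⟨j, hj⟩) | h1
    · exact (hPiv q hqP).2.1 (Finset.mem_of_mem_erase h1)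
    · exact (Finset.notMem_erase q Piv) h1
    · have := (hq.2.1 j).2.1
      rw [← hj] at this
      exact this (Finset.mem_union_right _ hqP)
    · exact hqp h1
  have hqv : ∀ j, (qv j).Prime ∧ Nat.Coprime (ribetLevelT p ty Smin Piv) (qv j) := by
    intro j
    refine ⟨hQp j, ?_⟩
    rw [Nat.coprime_comm, Nat.Prime.coprime_iff_not_dvd (hQp j)]
    intro hd
    have hnot : qv j ∉ Smin ∪ Piv := (hq.2.1 j).2.1
    rw [ribetLevelT_eq] at hd
    rcases (Nat.Prime.dvd_mul (hQp j)).mp hd with h1 | h1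
    · exact hnot (H264.mem_of_dvd_ribetLevel p Smin Piv hSp hPp (hQp j) h1)
    · have := eq_of_prime_dvd_pFac_h593 hpprime (hQp j) h1
      exact hnot (this ▸ Finset.mem_union_left _ h.hpSmin)
  have hU : ∀ x ∈ UsetOf qv α, x.1.Prime ∧
      x.1 ∣ gLevel (ribetLevelT p ty Smin (Piv.erase q)) qv := by
    rintro x ⟨j, rfl⟩
    exact ⟨hQp j, dvd_gLevel _ qv j⟩
  obtain ⟨c, m, hm, hnat, heq, hker⟩ :=
    hCor p hp3 𝒪 ρbar Smin h ty hty Piv hPiv k pv hpv hpvPiv n r qv hq PQ α hα V h' hV hh1 hh2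
  exact st_KG_h593 hS35 h hsub hSigP PQ qv hq.1
    (ribetLevelT p ty Smin (Piv.erase q)) (ribetLevelT p ty Smin Piv) q
    (ribetLevelT_erase_mul_h593 hqP) (ribetLevelT_ne_zero_h593 hpprime (Piv.erase q) hSp hP')
    hqprime hqp hqv hqN hLSig hU
    (fun W hW => hMZ p hp3 𝒪 ρbar Smin h ty hty Piv hPiv hmin n r qv hq PQ α hα q hqP W hW)
    hh2 (isMid_KIA_T p ty Smin pv qv) V a ha (chiRelIA_T p ty Smin pv qv 1 V) c m hm hnat heq hker
    (x : PQ.T →+* 𝒪') hx hp' hsupp P hP φ hφ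

end Fermat.Agent.S38.H593
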