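import Fermat.Agent.S38T.H593.StAsm
import Fermat.Agent.S38T.H509.FreeCorT
import Fermat.Agent.S38T.H31.MinZeroT

/-!
# Row S59, cell LO-IA (B2), HECKE-T, leaf IA-ST CLOSED, type `ty`  (helper593)

`iaStPt_closed_T_h593 : S35Statement → IAStPtStatement953_T`

= `iaStPt_h593_T` (`S38T/H593/StAsm.lean`) fed with

* `H31.iaMinZeroT_h31 : IAMinZeroStatement_T` (helper31, `S38T/H31/MinZeroT.lean`),
* `H509.iaStCor_T_h509 : IAStCorStatement_T` (helper509, `S38T/H509/FreeCorT.lean`).

The only remaining hypothesis is the frozen row `S35Statement`.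
-/

set_option autoImplicit false

namespace Fermat.Agent.S38.H593

/-- **IA-ST of type `ty`, closed modulo `S35`**: the twin of `iaStPt_closed_h593`. -/
theorem iaStPt_closed_T_h593 (hS35 : Fermat.Agent.S58.S35Statement) :
    Fermat.Agent.S38.H953.IAStPtStatement953_T :=
  iaStPt_h593_T Fermat.Agent.S38.H31.iaMinZeroT_h31 hS35 Fermat.Agent.S38.H509.iaStCor_T_h509

end Fermat.Agent.S38.H593
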