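import Fermat.Agent.S38T.H593.StClosedT
import Fermat.Agent.S38T.H473.PtAdaptGen

/-!
# Row S59, cell LO-IA (B2), HECKE-T: the ROW IA-ST of type `ty`, closed modulo `S35`  (helper593)

`iaSt_closed_T_h593 : S35Statement → IAStStatement_T`

= kill glue of helper473 (`S38T/H473/PtAdaptGen.lean`, `iaSt_of_pt953_T473`) applied to
`H509.iaFree_T_h509 : IAFreeStatement_T` and `iaStPt_closed_T_h593` (`S38T/H593/StClosedT.lean`).
Also the point-level statement in the form of helper473, `iaStPt473_closed_T_h593`.
-/

set_option autoImplicit false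

namespace Fermat.Agent.S38.H593

/-- The point-level IA-ST statement of type `ty` in the form of helper473, closed modulo `S35`. -/
theorem iaStPt473_closed_T_h593 (hS35 : Fermat.Agent.S58.S35Statement) :
    Fermat.Agent.S38.H473.IAStPtStatement_T :=
  Fermat.Agent.S38.H473.Gen.iaStPt_of_953_T473 (iaStPt_closed_T_h593 hS35)

/-- **The row IA-ST of HECKE-T, closed modulo `S35`.** -/
theorem iaSt_closed_T_h593 (hS35 : Fermat.Agent.S58.S35Statement) :
    Fermat.Agent.S38.IA.Hecke.IAStStatement_T :=
  Fermat.Agent.S38.H473.Gen.iaSt_of_pt953_T473 Fermat.Agent.S38.H509.iaFree_T_h509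
    (iaStPt_closed_T_h593 hS35)

end Fermat.Agent.S38.H593
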